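import Fermat.Agent.ModularParametrization.AlgebraicTorsion
import Fermat.Agent.Tau.Superlattice
import Fermat.Agent.Tau.Uniformisation

/-!
# Lattice sums at torsion points

For a lattice with algebraic invariants the point `(℘ x, ℘' x / 2)` at a torsion point `x` has
algebraic coordinates, and every derivative of `℘` is a polynomial in `℘` and `℘'` with algebraic
coefficients. So `∑ (l - x) ^ (-r)` is algebraic at every torsion point for `r ≥ 3`; at the lattice
points this follows by writing the sum over the lattice as that over the cosets of `2 L`.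
-/

set_option autoImplicit false
set_option linter.style.haveILetI false
set_option linter.unusedSectionVars false

noncomputable section

open WeierstrassCurve Filter FA.Mazur.Wp
open scoped WeierstrassCurve.Affine Topology

namespace FA.Damerell

theorem isAlgebraic_ratCast (r : ℚ) : IsAlgebraic ℚ (r : ℂ) := by
  simpa using isAlgebraic_algebraMap (R := ℚ) (A := ℂ) r

theorem isAlgebraic_intCast (m : ℤ) : IsAlgebraic ℚ (m : ℂ) := by
  simpa using isAlgebraic_ratCast (m : ℚ)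

theorem isAlgebraic_natCast (m : ℕ) : IsAlgebraic ℚ (m : ℂ) := by
  simpa using isAlgebraic_ratCast (m : ℚ)

theorem isAlgebraic_sum {ι : Type*} (s : Finset ι) {F : ι → ℂ}
    (h : ∀ i ∈ s, IsAlgebraic ℚ (F i)) : IsAlgebraic ℚ (∑ i ∈ s, F i) :=
  Finset.sum_induction _ (IsAlgebraic ℚ) (fun _ _ => IsAlgebraic.add) isAlgebraic_zero h

variable (L : PeriodPair)

/-- **Torsion points of a curve with algebraic coefficients are algebraic.** -/
theorem isAlgebraic_wp_of_torsion (h₂ : IsAlgebraic ℚ L.g₂) (h₃ : IsAlgebraic ℚ L.g₃) {n : ℕ}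
    (hn : n ≠ 0) {x : ℂ} (hx : x ∉ L.lattice) (hnx : (n : ℂ) * x ∈ L.lattice) :
    IsAlgebraic ℚ (L.weierstrassP x) ∧ IsAlgebraic ℚ (L.derivWeierstrassP x) := by
  classical
  let Q := algebraicClosure ℚ ℂ
  have hQ : ∀ {z : ℂ}, IsAlgebraic ℚ z → z ∈ Q := fun h => mem_algebraicClosure_iff.2 h
  haveI : IsAlgClosure ℚ Q := algebraicClosure.isAlgClosure ℚ ℂ
  haveI : IsAlgClosed Q := IsAlgClosure.isAlgClosed ℚ
  let W : WeierstrassCurve Q := ⟨0, 0, 0, -⟨L.g₂, hQ h₂⟩ / 4, -⟨L.g₃, hQ h₃⟩ / 4⟩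
  have hW : latCurve L = W.map (algebraMap Q ℂ) := by
    ext <;> simp [latCurve, W, map_ofNat]
  haveI : W.IsElliptic := ⟨isUnit_iff_ne_zero.mpr fun hz => (latCurve L).isUnit_Δ.ne_zero (by
    rw [hW, WeierstrassCurve.map_Δ, hz, map_zero])⟩
  let i : Q →ₐ[Q] ℂ := Algebra.ofId Q ℂ
  let Φ : {P : (W.toAffine⁄Q).Point // n • P = 0} → {P : (W.toAffine⁄ℂ).Point // n • P = 0} :=
    fun P => ⟨Affine.Point.map i P.1, by rw [← map_nsmul, P.2, map_zero]⟩
  have hinj : Function.Injective Φ := fun P P' e =>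
    Subtype.ext ((Affine.Point.map_injective i) (congrArg Subtype.val e))
  have hC := FA.EC.natCard_nsmul_eq_zero (W.map (algebraMap Q ℂ)) (Nat.cast_ne_zero.mpr hn)
  have hK := FA.EC.natCard_nsmul_eq_zero (W.map (algebraMap Q Q)) (Nat.cast_ne_zero.mpr hn)
  have : Finite {P : (W.toAffine⁄ℂ).Point // n • P = 0} :=
    Nat.finite_of_card_ne_zero (hC ▸ pow_ne_zero 2 hn)
  have h0 : n • unif L x = 0 := by
    rw [← unifHom_apply, ← map_nsmul, nsmul_eq_mul, unifHom_apply, unif_of_mem L hnx]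
  rw [unif_of_notMem L hx] at h0
  have hns : (latCurve L).toAffine.Nonsingular (L.weierstrassP x) (L.derivWeierstrassP x / 2) :=
    Affine.equation_iff_nonsingular.1 (equation_latCurve L hx)
  change n • Affine.Point.some _ _ hns = 0 at h0
  revert hns
  rw [hW]
  intro hns h0
  obtain ⟨⟨P, hP⟩, hPe⟩ := (hinj.bijective_of_nat_card_le (hC.trans hK.symm).le).2 ⟨_, h0⟩
  have hPe' := congrArg Subtype.val hPe
  rcases P with _ | ⟨u, v, huv⟩
  · exact absurd hPe'.symm (Affine.Point.some_ne_zero hns)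
  · simp only [Φ, Affine.Point.map_some] at hPe'
    have halg : ∀ z : Q, IsAlgebraic ℚ (z : ℂ) := fun z =>
      mem_algebraicClosure_iff.1 z.2
    obtain ⟨hu, hv⟩ := (Affine.Point.some.injEq ..).mp hPe'
    refine ⟨hu ▸ halg u, ?_⟩
    have h2 : IsAlgebraic ℚ (L.derivWeierstrassP x / 2) := hv ▸ halg v
    have := h2.mul (isAlgebraic_natCast 2)
    rwa [Nat.cast_ofNat, div_mul_cancel₀ _ (two_ne_zero' ℂ)] at this

/-- The polynomials in `℘` and `℘'` with algebraic coefficients. -/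
inductive AlgFun : (ℂ → ℂ) → Prop
  | const (c : ℂ) (hc : IsAlgebraic ℚ c) : AlgFun fun _ => c
  | wp : AlgFun L.weierstrassP
  | wq : AlgFun L.derivWeierstrassP
  | add {F G : ℂ → ℂ} (hF : AlgFun F) (hG : AlgFun G) : AlgFun fun z => F z + G z
  | mul {F G : ℂ → ℂ} (hF : AlgFun F) (hG : AlgFun G) : AlgFun fun z => F z * G z

variable {L}

theorem AlgFun.isAlgebraic {F : ℂ → ℂ} (hF : AlgFun L F) {x : ℂ}
    (h₁ : IsAlgebraic ℚ (L.weierstrassP x)) (h₂ : IsAlgebraic ℚ (L.derivWeierstrassP x)) :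
    IsAlgebraic ℚ (F x) := by
  induction hF with
  | const c hc => exact hc
  | wp => exact h₁
  | wq => exact h₂
  | add _ _ hF hG => exact hF.add hG
  | mul _ _ hF hG => exact hF.mul hG

theorem AlgFun.exists_deriv (hg : IsAlgebraic ℚ L.g₂) {F : ℂ → ℂ} (hF : AlgFun L F) :
    ∃ G, AlgFun L G ∧ ∀ x ∉ L.lattice, HasDerivAt F (G x) x := by
  induction hF with
  | const c hc => exact ⟨_, .const 0 isAlgebraic_zero, fun x _ => hasDerivAt_const x c⟩
  | wp => exact ⟨_, .wq, fun x hx => FA.Hatada.hasDerivAt_P L hx⟩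
  | wq =>
    refine ⟨_, (AlgFun.mul (.const ((6 : ℕ) : ℂ) (isAlgebraic_natCast 6))
      (.mul .wp .wp)).add (.const ((((-1 : ℚ) / 2 : ℚ) : ℂ) * L.g₂)
        ((isAlgebraic_ratCast _).mul hg)), fun x hx => ?_⟩
    have h := FA.Hatada.hasDerivAt_P' L hx
    convert h using 1
    push_cast
    ring
  | @add F G _ _ hF hG =>
    obtain ⟨F', hF', hdF⟩ := hF
    obtain ⟨G', hG', hdG⟩ := hG
    exact ⟨_, hF'.add hG', fun x hx => (hdF x hx).fun_add (hdG x hx)⟩
  | @mul F G hF₀ hG₀ hF hG =>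
    obtain ⟨F', hF', hdF⟩ := hF
    obtain ⟨G', hG', hdG⟩ := hG
    exact ⟨_, (hF'.mul hG₀).add (hF₀.mul hG'), fun x hx => (hdF x hx).fun_mul (hdG x hx)⟩

variable (L)

/-- **All derivatives of `℘` are polynomials in `℘` and `℘'`.** -/
theorem exists_iteratedDeriv (hg : IsAlgebraic ℚ L.g₂) (n : ℕ) :
    ∃ F, AlgFun L F ∧ ∀ x ∉ L.lattice, iteratedDeriv n L.weierstrassP x = F x := by
  induction n with
  | zero => exact ⟨_, .wp, fun x _ => by rw [iteratedDeriv_zero]⟩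
  | succ n ih =>
    obtain ⟨F, hF, he⟩ := ih
    obtain ⟨G, hG, hd⟩ := hF.exists_deriv hg
    refine ⟨G, hG, fun x hx => ?_⟩
    have hev : iteratedDeriv n L.weierstrassP =ᶠ[𝓝 x] F :=
      (FA.Hatada.eventually_notMem_lattice L hx).mono fun y hy => he y hy
    rw [iteratedDeriv_succ, hev.deriv_eq, (hd x hx).deriv]

/-- The sum at a torsion point outside the lattice. -/
theorem isAlgebraic_sumInvPow_notMem (h₂ : IsAlgebraic ℚ L.g₂) (h₃ : IsAlgebraic ℚ L.g₃) {n : ℕ}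
    (hn : n ≠ 0) {x : ℂ} (hx : x ∉ L.lattice) (hnx : (n : ℂ) * x ∈ L.lattice) {r : ℕ}
    (hr : 3 ≤ r) : IsAlgebraic ℚ (L.sumInvPow x r) := by
  obtain ⟨m, rfl⟩ : ∃ m, r = m + 2 := ⟨r - 2, by omega⟩
  obtain ⟨F, hF, he⟩ := exists_iteratedDeriv L h₂ m
  obtain ⟨hP, hP'⟩ := isAlgebraic_wp_of_torsion L h₂ h₃ hn hx hnx
  have h := L.iteratedDeriv_weierstrassPExcept_self x (n := m)
  rw [FA.Hatada.except_eq L hx, he x hx, if_neg (by omega)] at h
  have hne : (((m + 1).factorial : ℕ) : ℂ) ≠ 0 := Nat.cast_ne_zero.2 (Nat.factorial_ne_zero _)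
  rw [show L.sumInvPow x (m + 2) = F x * (((m + 1).factorial : ℕ) : ℂ)⁻¹ by rw [h]; field_simp]
  exact (hF.isAlgebraic hP hP').mul (isAlgebraic_natCast _).inv

theorem sumInvPow_add_mem {w : ℂ} (hw : w ∈ L.lattice) (x : ℂ) (r : ℕ) :
    L.sumInvPow (x + w) r = L.sumInvPow x r := by
  simp only [PeriodPair.sumInvPow]
  rw [← (Equiv.addRight (⟨w, hw⟩ : L.lattice)).tsum_eq]
  refine tsum_congr fun l => ?_
  simp only [Equiv.coe_addRight, Submodule.coe_add]
  ring_nf

/-- The residues modulo `N` of a pair of integers. -/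
def pairResidues (N : ℕ) [NeZero N] : (Fin N × Fin N) × (ℤ × ℤ) ≃ ℤ × ℤ :=
  ((Equiv.prodComm _ _).trans (Equiv.prodProdProdComm ℤ ℤ (Fin N) (Fin N))).trans
    ((Int.divModEquiv N).symm.prodCongr (Int.divModEquiv N).symm)

theorem pairResidues_apply (N : ℕ) [NeZero N] (i j : Fin N) (a b : ℤ) :
    pairResidues N ((i, j), (a, b)) = (a * N + (i : ℕ), b * N + (j : ℕ)) :=
  rfl

/-- The representatives of the residues modulo `N`. -/
def residue (N : ℕ) (i : Fin N × Fin N) : ℂ := (i.1 : ℕ) * L.ω₁ + (i.2 : ℕ) * L.ω₂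

theorem residue_mem {N : ℕ} (i : Fin N × Fin N) : residue L N i ∈ L.lattice :=
  PeriodPair.mem_lattice.2 ⟨(i.1 : ℕ), (i.2 : ℕ), by simp [residue]⟩

/-- **A sum over the lattice by residues modulo `N`.** -/
theorem tsum_residues (N : ℕ) [NeZero N] {F : ℂ → ℂ}
    (hF : Summable fun l : L.lattice => F l) :
    ∑' l : L.lattice, F l =
      ∑ i : Fin N × Fin N, ∑' l : L.lattice, F ((N : ℂ) * l + residue L N i) := by
  let c : L.lattice ≃ ℤ × ℤ := L.latticeEquivProd.toEquiv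
  let G : ℤ × ℤ → ℂ := fun q => F (c.symm q : L.lattice)
  have hG : Summable G :=
    (Equiv.summable_iff (f := fun l : L.lattice => F l) c.symm).2 hF
  have hs : Summable fun p => G (pairResidues N p) :=
    (Equiv.summable_iff (f := G) (pairResidues N)).2 hG
  rw [← Equiv.tsum_eq c.symm (fun l : L.lattice => F l)]
  show ∑' q, G q = _
  rw [← Equiv.tsum_eq (pairResidues N) G, hs.tsum_prod' fun i => hs.prod_factor i, tsum_fintype]
  refine Finset.sum_congr rfl fun ⟨i, j⟩ _ => ?_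
  rw [← c.symm.tsum_eq (fun l : L.lattice => F ((N : ℂ) * l + residue L N (i, j)))]
  refine tsum_congr fun ⟨a, b⟩ => congrArg F ?_
  rw [pairResidues_apply]
  show ((L.latticeEquivProd.symm _).1 : ℂ) = _ * (L.latticeEquivProd.symm _).1 + _
  rw [L.latticeEquiv_symm_apply, L.latticeEquiv_symm_apply]
  simp [residue]
  ring

/-- The sum over the nonzero lattice points, by residues modulo two. -/
theorem isAlgebraic_G (h₂ : IsAlgebraic ℚ L.g₂) (h₃ : IsAlgebraic ℚ L.g₃) {r : ℕ} (hr : 3 ≤ r) :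
    IsAlgebraic ℚ (L.G r) := by
  have hs : Summable fun l : L.lattice => ((l : ℂ) ^ r)⁻¹ := by
    simpa using (L.hasSum_sumInvPow 0 (r := r) (by omega)).summable
  have h := tsum_residues L 2 (F := fun z => (z ^ r)⁻¹) hs
  have hterm : ∀ i : Fin 2 × Fin 2, (∑' l : L.lattice, ((((2 : ℕ) : ℂ) * l + residue L 2 i) ^ r)⁻¹) =
      ((2 : ℂ) ^ r)⁻¹ * L.sumInvPow (-(residue L 2 i / 2)) r := fun i => by
    rw [PeriodPair.sumInvPow, ← tsum_mul_left]
    refine tsum_congr fun l => ?_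
    rw [← mul_inv, ← mul_pow]
    congr 2
    push_cast
    ring
  rw [Finset.sum_congr rfl fun i _ => hterm i, ← Finset.mul_sum,
    ← Finset.add_sum_erase _ _ (Finset.mem_univ ((0 : Fin 2), (0 : Fin 2))),
    show residue L 2 ((0 : Fin 2), (0 : Fin 2)) = 0 by simp [residue], zero_div, neg_zero,
    PeriodPair.sumInvPow_zero, show (∑' l : L.lattice, ((l : ℂ) ^ r)⁻¹) = L.G r from rfl] at h
  set S := ∑ i ∈ Finset.univ.erase ((0 : Fin 2), (0 : Fin 2)),
    L.sumInvPow (-(residue L 2 i / 2)) r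
  have hS : IsAlgebraic ℚ S := isAlgebraic_sum _ fun i hi => by
    refine isAlgebraic_sumInvPow_notMem L h₂ h₃ two_ne_zero (fun hmem => ?_) ?_ hr
    · obtain ⟨a, b, hab⟩ := PeriodPair.mem_lattice.1 hmem
      have h2 : (((2 * a : ℤ) : ℝ)) • L.ω₁ + ((2 * b : ℤ) : ℝ) • L.ω₂ =
          ((-((i.1 : ℕ) : ℤ) : ℤ) : ℝ) • L.ω₁ + ((-((i.2 : ℕ) : ℤ) : ℤ) : ℝ) • L.ω₂ := by
        simp only [Complex.real_smul, residue] at hab ⊢
        push_cast
        linear_combination 2 * hab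
      obtain ⟨e₁, e₂⟩ := L.indep.eq_of_pair h2
      have ha : 2 * a = -((i.1 : ℕ) : ℤ) := Int.cast_injective e₁
      have hb : 2 * b = -((i.2 : ℕ) : ℤ) := Int.cast_injective e₂
      refine (Finset.mem_erase.1 hi).1 (Prod.ext (Fin.ext ?_) (Fin.ext ?_)) <;>
        simp only [Fin.val_zero] <;> omega
    · rw [Nat.cast_ofNat, mul_neg, mul_div_cancel₀ _ two_ne_zero]
      exact neg_mem (residue_mem L i)
  have h2 : (2 : ℂ) ^ r - 1 ≠ 0 := sub_ne_zero.2 fun e => by
    have e' : (2 : ℕ) ^ r = 1 := by exact_mod_cast e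
    have := Nat.one_lt_pow (by omega : r ≠ 0) one_lt_two
    omega
  rw [show L.G r = S * ((((2 ^ r : ℕ) : ℂ) + ((-1 : ℤ) : ℂ)))⁻¹ by
    push_cast
    rw [← sub_eq_add_neg, eq_mul_inv_iff_mul_eq₀ h2]
    have e : (2 : ℂ) ^ r * L.G r = L.G r + S := by
      conv_lhs => rw [h]
      rw [← mul_assoc, mul_inv_cancel₀ (pow_ne_zero r two_ne_zero), one_mul]
    linear_combination e]
  exact hS.mul ((isAlgebraic_natCast _).add (isAlgebraic_intCast _)).inv

/-- **Lattice sums at torsion points are algebraic.** -/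
theorem isAlgebraic_sumInvPow (h₂ : IsAlgebraic ℚ L.g₂) (h₃ : IsAlgebraic ℚ L.g₃) {n : ℕ}
    (hn : n ≠ 0) {x : ℂ} (hnx : (n : ℂ) * x ∈ L.lattice) {r : ℕ} (hr : 3 ≤ r) :
    IsAlgebraic ℚ (L.sumInvPow x r) := by
  by_cases hx : x ∈ L.lattice
  · have h := sumInvPow_add_mem L hx 0 r
    rw [zero_add, PeriodPair.sumInvPow_zero] at h
    exact h ▸ isAlgebraic_G L h₂ h₃ hr
  · exact isAlgebraic_sumInvPow_notMem L h₂ h₃ hn hx hnx hr

end FA.Damerell

end
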