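import Fermat.Agent.Damerell.Main
import Fermat.Agent.DeuringCM.LSeries

/-!
# Damerell's theorem for the curves with complex multiplication

The powers of Deuring's character of a curve over its field of multiplication are characters of type
`k`, and the periods of the curve are algebraic multiples of `π Ω`.
-/

set_option autoImplicit false
set_option linter.style.haveILetI false
set_option linter.unusedSectionVars false

noncomputable section

open WeierstrassCurve NumberField Module IsDedekindDomain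
open FA.TraceNF (frobTrace)
open FA.AlgHecke (IsAlgChar typeVal)
open scoped WeierstrassCurve.Affine nonZeroDivisors Real Classical ComplexConjugate

namespace FA.Damerell

variable {F : Type} [Field F] [NumberField F] [IsTotallyComplex F]

/-- The powers of a character of type `1` at `e`. -/
theorem isAlgChar_pow {𝔣 : Ideal (𝓞 F)} {f : Ideal (𝓞 F) →* ℂ} (e : F →+* ℂ)
    (h : IsAlgChar 𝔣 (typeAt e 1) f) {k : ℕ} (hk : k ≠ 0) :
    IsAlgChar 𝔣 (typeAt e k) ((powMonoidHom k).comp f) := by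
  refine ⟨h.ne_bot, fun I hI => ?_, fun x hx => ?_⟩
  · simpa [pow_ne_zero_iff hk] using h.ne_zero_iff I hI
  · rw [MonoidHom.comp_apply, powMonoidHom_apply, h.ray x hx, typeVal_typeAt, typeVal_typeAt,
      pow_one]

/-- The type of Deuring's character in a quadratic field. -/
theorem type_eq_typeAt (hK : finrank ℚ F = 2) {d : ℤ} (hd0 : d < 0) {s : F}
    (hs : s ^ 2 = (d : F)) (e : F →+* ℂ) :
    (fun σ : F →+* ℂ => if σ s = e s then (1 : ℤ) else 0) = typeAt e 1 := by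
  funext σ
  rcases emb_cases hK e σ with rfl | rfl
  · simp [typeAt]
  · rw [typeAt, if_neg (emb_ne_conj e), if_neg]
    rw [ComplexEmbedding.conjugate_coe_eq, (FA.DeuringCM.apply_sqrt hd0 hs e).1]
    intro h
    exact (FA.DeuringCM.apply_sqrt hd0 hs e).2 (by linear_combination -h / 2)

/-- **The L-values of a curve with complex multiplication by the field it is defined over.** -/
theorem damerell_curve (W₀ : WeierstrassCurve (𝓞 F)) [(W₀.map (algebraMap (𝓞 F) F)).IsElliptic]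
    (hK : finrank ℚ F = 2) (ψ : F →+* ℂ) {d : ℤ} (hd : Squarefree d) (hd0 : d < 0) {s : F}
    (hs : s ^ 2 = (d : F)) (L : PeriodPair)
    (h₂ : L.g₂ = ψ (W₀.map (algebraMap (𝓞 F) F)).c₄ / 12)
    (h₃ : L.g₃ = ψ (W₀.map (algebraMap (𝓞 F) F)).c₆ / 216)
    (hcm : ∃ ω : ℂ, (∀ m : ℤ, ω ≠ m) ∧ (∀ l ∈ L.lattice, ω * l ∈ L.lattice) ∧
        ∃ x y : ℚ, (ω - (x : ℂ)) ^ 2 = (d : ℂ) * (y : ℂ) ^ 2) :
    ∃ (𝔣 : Ideal (𝓞 F)) (f : Ideal (𝓞 F) →* ℂ),
      IsAlgChar 𝔣 (fun σ => if σ = ψ then 1 else 0) f ∧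
      (∀ v : HeightOneSpectrum (𝓞 F), W₀.Δ ∉ v.asIdeal →
        f v.asIdeal + conj (f v.asIdeal) = frobTrace W₀ v ∧
        f v.asIdeal * conj (f v.asIdeal) = (Ideal.absNorm v.asIdeal : ℂ)) ∧
      ∀ (k : ℕ), 3 ≤ k → ∀ l ∈ L.lattice, l ≠ 0 → ∃ A : ℂ, IsAlgebraic ℚ A ∧ A ≠ 0 ∧
        HasSum (fun I : (Ideal (𝓞 F))⁰ =>
          f I.1 ^ k * ((Ideal.absNorm I.1 : ℕ) : ℂ) ^ (-(k : ℂ))) (A * l ^ k) ∧
        Transcendental ℚ (A * l ^ k) := by
  obtain ⟨ω, hω, hst, x, y, hxy⟩ := hcm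
  obtain ⟨𝔣, f, hf, -, -, hv⟩ := FA.DeuringCM.exists_hecke_char W₀ ψ hd hd0 hs
    ⟨L, h₂, h₃, ω, hω, hst, x, y, hxy⟩
  rw [type_eq_typeAt hK hd0 hs ψ] at hf
  refine ⟨𝔣, f, hf, fun v h => (hv v h).2, fun k hk l hl hl0 => ?_⟩
  haveI : NeZero (discr F).natAbs := ⟨Int.natAbs_ne_zero.mpr (discr_ne_zero F)⟩
  obtain ⟨χ, h1, h2, h3, h4, -, h6⟩ := FA.Summary.chowla_selberg_periods F hK
  obtain ⟨hΩ, hmain, hper⟩ := h6 ψ
  have hg₂ : IsAlgebraic ℚ L.g₂ := by
    rw [h₂, div_eq_mul_inv]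
    exact (isAlgebraic_emb ψ _).mul (isAlgebraic_natCast 12).inv
  have hg₃ : IsAlgebraic ℚ L.g₃ := by
    rw [h₃, div_eq_mul_inv]
    exact (isAlgebraic_emb ψ _).mul (isAlgebraic_natCast 216).inv
  have hω₂ : L.ω₂ ≠ 0 := fun h => by
    simpa using (LinearIndependent.pair_iff.mp L.indep 0 1 (by simp [h])).2
  have hratio : L.ω₁ / L.ω₂ ∈ ψ.range := by
    obtain ⟨a, b, hab⟩ := PeriodPair.mem_lattice.1 (hst _ L.ω₂_mem_lattice)
    have ha : (a : ℂ) ≠ 0 := fun h0 => by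
      rw [h0, zero_mul, zero_add] at hab
      exact hω b (mul_right_cancel₀ hω₂ hab.symm)
    obtain ⟨z, hz⟩ : ω ∈ ψ.range := by
      have hsq : (ω - (x : ℂ)) ^ 2 = (ψ ((y : F) * s)) ^ 2 := by
        rw [map_mul, mul_pow, map_ratCast, ← map_pow, hs, map_intCast, hxy]
        ring
      rcases sq_eq_sq_iff_eq_or_eq_neg.1 hsq with e | e
      · exact ⟨(x : F) + (y : F) * s, by rw [map_add, map_ratCast, ← e]; ring⟩
      · exact ⟨(x : F) + -((y : F) * s), by rw [map_add, map_ratCast, map_neg, ← e]; ring⟩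
    refine ⟨(z - (b : F)) / (a : F), ?_⟩
    rw [map_div₀, map_sub, map_intCast, map_intCast, hz]
    field_simp
    linear_combination -hab
  have halg := hper L hg₂ hg₃ hratio l hl
  set c := (π : ℂ) * ((((√π)⁻¹ * ∏ a : ZMod (discr F).natAbs,
    Real.Gamma ((a.val : ℝ) / (discr F).natAbs) ^
      ((Units.torsionOrder F : ℝ) * (χ a).re / (4 * classNumber F)) : ℝ)) : ℂ) with hc
  have hc0 : c ≠ 0 := mul_ne_zero (Complex.ofReal_ne_zero.2 Real.pi_ne_zero) hΩ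
  obtain ⟨τ, φ, hτ, hφ⟩ := exists_integer_lattice hK (ComplexEmbedding.conjugate ψ)
  obtain ⟨-, hmain', -⟩ := h6 (ComplexEmbedding.conjugate ψ)
  obtain ⟨-, hE4, hE6, -⟩ := hmain' τ hτ
  obtain ⟨g₂c, g₃c⟩ := isAlgebraic_scaled_invariants hΩ hE4 hE6
  obtain ⟨A, hA, hA0, hS⟩ := damerell hK hk (isAlgChar_pow ψ hf (by omega)) φ hφ hc0 g₂c g₃c
  have e : A * c ^ k = A * ((l / c) ^ k)⁻¹ * l ^ k := by
    rw [div_pow]
    field_simp
  refine ⟨A * ((l / c) ^ k)⁻¹, hA.mul (halg.pow k).inv,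
    mul_ne_zero hA0 (inv_ne_zero (pow_ne_zero k (div_ne_zero hl0 hc0))), ?_, ?_⟩
  · rw [← e]
    refine hS.congr_fun fun I => ?_
    rw [term_eq_cpow]
    rfl
  · exact transcendental_mul_pow (hA.mul (halg.pow k).inv)
      (mul_ne_zero hA0 (inv_ne_zero (pow_ne_zero k (div_ne_zero hl0 hc0))))
      (FA.SchneiderLang.transcendental_period hg₂ hg₃ hl hl0) (by omega)

end FA.Damerell

end
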