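import Fermat.Agent.Damerell.TorsionValues
import Fermat.Agent.AlgebraicHeckeFE.Euler
import Fermat.Agent.AlgebraicHecke.Values
import Fermat.Agent.Root.SummaryCMPeriods
import Fermat.Agent.Root.SummaryPeriodTranscendence
import Fermat.Agent.Mazur.Wp.Curve

/-!
# Damerell's theorem on the holomorphic line

For an imaginary quadratic field and a character with `f ((x)) = e x ^ k` at the `x ≡ 1` the terms
of the ideals in one class are, up to a constant, `ψ α / ē α ^ k` at the `α` of a fixed ideal, with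
`ψ` periodic modulo an integer. So `L (f, k)` is an algebraic combination of the sums
`∑ (l - x) ^ (-k)` over the lattice of the integers at torsion points, and these are algebraic
multiples of the `k`-th power of the period.
-/

set_option autoImplicit false
set_option linter.style.haveILetI false
set_option linter.unusedSectionVars false

noncomputable section

open NumberField NumberField.InfinitePlace Module IsDedekindDomain FA.Mazur.Wp
open FA.AlgHecke (IsAlgChar IsPure typeVal)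
open FA.Hecke (IsRayElt)
open scoped nonZeroDivisors UpperHalfPlane Real Classical ComplexConjugate

namespace FA.Damerell

variable {K : Type*} [Field K] [NumberField K]

/-- In a totally complex field no positivity is imposed on a ray. -/
theorem not_real_emb [IsTotallyComplex K] (φ : K →+* ℝ) : False := by
  have hr : ComplexEmbedding.IsReal ((Complex.ofRealHom).comp φ) := by
    rw [ComplexEmbedding.isReal_iff]
    exact RingHom.ext fun x => Complex.conj_ofReal _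
  exact not_isReal_iff_isComplex.mpr (IsTotallyComplex.isComplex _)
    (isReal_mk_iff.mpr hr)

/-- The embeddings of an imaginary quadratic field. -/
theorem emb_cases [IsTotallyComplex K] (hK : finrank ℚ K = 2) (e σ : K →+* ℂ) :
    σ = e ∨ σ = ComplexEmbedding.conjugate e := by
  by_contra h
  rw [not_or] at h
  have hne : e ≠ ComplexEmbedding.conjugate e := fun he =>
    not_isReal_iff_isComplex.mpr (IsTotallyComplex.isComplex (InfinitePlace.mk e))
      (isReal_mk_iff.mpr (ComplexEmbedding.isReal_iff.mpr he.symm))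
  have h3 := Finset.card_le_univ ({e, ComplexEmbedding.conjugate e, σ} : Finset (K →+* ℂ))
  rw [Finset.card_insert_of_notMem (by simp [hne, Ne.symm h.1]),
    Finset.card_pair (Ne.symm h.2), Embeddings.card, hK] at h3
  omega

theorem emb_ne_conj [IsTotallyComplex K] (e : K →+* ℂ) :
    ComplexEmbedding.conjugate e ≠ e := fun he =>
  not_isReal_iff_isComplex.mpr (IsTotallyComplex.isComplex (InfinitePlace.mk e))
    (isReal_mk_iff.mpr (ComplexEmbedding.isReal_iff.mpr he))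

/-- The type `k` at `e`. -/
def typeAt (e : K →+* ℂ) (k : ℕ) : (K →+* ℂ) → ℤ := fun σ => if σ = e then (k : ℤ) else 0

theorem typeVal_typeAt (e : K →+* ℂ) (k : ℕ) (x : K) : typeVal (typeAt e k) x = e x ^ k := by
  rw [typeVal, Finset.prod_eq_single e (fun σ _ hσ => by rw [typeAt, if_neg hσ, zpow_zero])
    (fun h => absurd (Finset.mem_univ e) h), typeAt, if_pos rfl, zpow_natCast]

theorem isPure_typeAt [IsTotallyComplex K] (hK : finrank ℚ K = 2) (e : K →+* ℂ) (k : ℕ) :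
    IsPure (typeAt e k) (k : ℤ) := fun σ => by
  rcases emb_cases hK e σ with rfl | rfl
  · simp [typeAt, if_neg (emb_ne_conj σ)]
  · simp [typeAt, if_neg (emb_ne_conj e)]

/-- The norm as a product of the two conjugates. -/
theorem absNorm_span_eq [IsTotallyComplex K] (hK : finrank ℚ K = 2) (e : K →+* ℂ) (x : 𝓞 K) :
    ((Ideal.absNorm (Ideal.span {x}) : ℕ) : ℂ) = e (x : K) * conj (e (x : K)) := by
  have h := FA.AlgHecke.prod_norm_eq x
  have huniv : (Finset.univ : Finset (K →+* ℂ)) = {e, ComplexEmbedding.conjugate e} := by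
    refine Finset.ext fun σ => ?_
    simpa using emb_cases hK e σ
  rw [huniv, Finset.prod_pair (Ne.symm (emb_ne_conj e)), ComplexEmbedding.conjugate_coe_eq,
    Complex.norm_conj] at h
  rw [Complex.mul_conj', ← Complex.ofReal_natCast, ← h]
  push_cast
  ring

/-- **Characters of every type `k` exist**: `f` with `f ((x)) = e x ^ k` at the `x ≡ 1` modulo
`3`. -/
theorem exists_char [IsTotallyComplex K] (hK : finrank ℚ K = 2) (e : K →+* ℂ) (k : ℕ) :
    ∃ f : Ideal (𝓞 K) →* ℂ,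
      IsAlgChar (Ideal.span {(3 : 𝓞 K)}) (typeAt e k) f := by
  refine FA.AlgHecke.exists_isAlgChar (by simp) fun u hu => ?_
  suffices h : (u : 𝓞 K) = 1 by rw [h, typeVal_typeAt]; simp
  by_contra hne
  have h0 : (u : 𝓞 K) - 1 ≠ 0 := sub_ne_zero.2 hne
  obtain ⟨z, hz⟩ := Ideal.mem_span_singleton'.1 hu.2.1
  have hz0 : z ≠ 0 := fun h => h0 (by rw [← hz, h, zero_mul])
  have h1 : ((Ideal.absNorm (Ideal.span {(1 : 𝓞 K)}) : ℕ) : ℂ) = 1 := by simp
  have hu1 : ‖e ((u : 𝓞 K) : K)‖ = 1 := by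
    have h2 := absNorm_span_eq hK e (u : 𝓞 K)
    rw [Ideal.span_singleton_eq_top.mpr u.isUnit, Ideal.absNorm_top, Nat.cast_one,
      Complex.mul_conj', ← Complex.ofReal_pow, ← Complex.ofReal_one, Complex.ofReal_inj] at h2
    exact (pow_eq_one_iff_of_nonneg (norm_nonneg _) two_ne_zero).1 h2.symm
  have hz1 : 1 ≤ ‖e (z : K)‖ := by
    have h2 := absNorm_span_eq hK e z
    rw [Complex.mul_conj', ← Complex.ofReal_pow, ← Complex.ofReal_natCast,
      Complex.ofReal_inj] at h2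
    have h3 : (1 : ℝ) ≤ (Ideal.absNorm (Ideal.span {z}) : ℕ) := by
      exact_mod_cast Nat.one_le_iff_ne_zero.2 fun h => hz0 (by
        rwa [Ideal.absNorm_eq_zero_iff, Ideal.span_singleton_eq_bot] at h)
    rw [h2] at h3
    nlinarith [norm_nonneg (e (z : K))]
  have h4 : ‖e (((u : 𝓞 K) - 1 : 𝓞 K) : K)‖ ≤ 2 := by
    rw [show (((u : 𝓞 K) - 1 : 𝓞 K) : K) = ((u : 𝓞 K) : K) - 1 from rfl, map_sub, map_one]
    refine (norm_sub_le _ _).trans ?_
    rw [hu1, norm_one]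
    norm_num
  rw [← hz, show ((z * 3 : 𝓞 K) : K) = (z : K) * 3 by push_cast; rfl, map_mul, map_ofNat, norm_mul,
    Complex.norm_ofNat] at h4
  linarith

variable (e : K →+* ℂ) {k : ℕ}

/-- The term of an ideal at `s = k`. -/
def term (f : Ideal (𝓞 K) →* ℂ) (k : ℕ) (I : Ideal (𝓞 K)) : ℂ :=
  f I * (((Ideal.absNorm I : ℕ) : ℂ) ^ k)⁻¹

theorem term_mul (f : Ideal (𝓞 K) →* ℂ) (k : ℕ) (I J : Ideal (𝓞 K)) :
    term f k (I * J) = term f k I * term f k J := by
  simp only [term, map_mul, Nat.cast_mul, mul_pow, mul_inv]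
  ring

theorem term_bot (f : Ideal (𝓞 K) →* ℂ) (hk : k ≠ 0) : term f k ⊥ = 0 := by
  simp [term, hk]

theorem term_eq_cpow (f : Ideal (𝓞 K) →* ℂ) (I : Ideal (𝓞 K)) :
    term f k I = f I * ((Ideal.absNorm I : ℕ) : ℂ) ^ (-(k : ℂ)) := by
  rw [term, Complex.cpow_neg, Complex.cpow_natCast]

variable {𝔣 : Ideal (𝓞 K)} {f : Ideal (𝓞 K) →* ℂ}

/-- Congruent elements generate ideals alike prime to `𝔣`. -/
theorem span_sup_eq {x y : 𝓞 K} (h : x - y ∈ 𝔣) :
    Ideal.span {x} ⊔ 𝔣 = Ideal.span {y} ⊔ 𝔣 := by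
  refine le_antisymm (sup_le ?_ le_sup_right) (sup_le ?_ le_sup_right) <;>
    rw [Ideal.span_singleton_le_iff_mem]
  · rw [show x = y + (x - y) by ring]
    exact Submodule.add_mem_sup (Ideal.mem_span_singleton_self _) h
  · rw [show y = x + -(x - y) by ring]
    exact Submodule.add_mem_sup (Ideal.mem_span_singleton_self _) (neg_mem h)

/-- **The character of an element over its `k`-th power is periodic.** -/
theorem char_div_periodic [IsTotallyComplex K] (h : IsAlgChar 𝔣 (typeAt e k) f) {x y : 𝓞 K}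
    (hx : x ≠ 0) (hy : y ≠ 0) (hxy : x - y ∈ 𝔣) :
    f (Ideal.span {x}) / e (x : K) ^ k = f (Ideal.span {y}) / e (y : K) ^ k := by
  have hs : ∀ {z : 𝓞 K}, z ≠ 0 → Ideal.span {z} ≠ ⊥ := fun hz => by simpa using hz
  by_cases hc : Ideal.span {x} ⊔ 𝔣 = ⊤
  swap
  · have hx0 : f (Ideal.span {x}) = 0 :=
      not_not.1 fun h0 => hc ((h.ne_zero_iff _ (hs hx)).1 h0)
    have hy0 : f (Ideal.span {y}) = 0 := not_not.1 fun h0 =>
      hc ((span_sup_eq hxy).trans ((h.ne_zero_iff _ (hs hy)).1 h0))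
    rw [hx0, hy0, zero_div, zero_div]
  obtain ⟨γ, hγ0, hγ⟩ : ∃ γ : 𝓞 K, γ ≠ 0 ∧ x * γ - 1 ∈ 𝔣 := by
    obtain ⟨a, ha, m, hm, ham⟩ := Submodule.mem_sup.1 ((Ideal.eq_top_iff_one _).1 hc)
    obtain ⟨b, rfl⟩ := Ideal.mem_span_singleton'.1 ha
    by_cases hb : b = 0
    · have h1 : (1 : 𝓞 K) ∈ 𝔣 := by
        rw [hb, zero_mul, zero_add] at ham
        exact ham ▸ hm
      exact ⟨1, one_ne_zero, by rw [(Ideal.eq_top_iff_one _).2 h1]; exact Submodule.mem_top⟩
    · exact ⟨b, hb, by rw [show x * b - 1 = -m by linear_combination ham]; exact neg_mem hm⟩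
  have hray : ∀ {z : 𝓞 K}, z ≠ 0 → z * γ - 1 ∈ 𝔣 →
      f (Ideal.span {z}) * f (Ideal.span {γ}) = e (z : K) ^ k * e (γ : K) ^ k := fun {z} hz hzγ => by
    rw [← map_mul, Ideal.span_singleton_mul_span_singleton,
      h.ray _ ⟨mul_ne_zero hz hγ0, hzγ, fun φ => (not_real_emb φ).elim⟩, typeVal_typeAt]
    push_cast
    rw [map_mul, mul_pow]
  have hyγ : y * γ - 1 ∈ 𝔣 := by
    rw [show y * γ - 1 = (x * γ - 1) - (x - y) * γ by ring]
    exact sub_mem hγ (Ideal.mul_mem_right _ _ hxy)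
  have hex : e (x : K) ≠ 0 := (map_ne_zero e).2 (RingOfIntegers.coe_ne_zero_iff.2 hx)
  have hey : e (y : K) ≠ 0 := (map_ne_zero e).2 (RingOfIntegers.coe_ne_zero_iff.2 hy)
  have heγ : e (γ : K) ≠ 0 := (map_ne_zero e).2 (RingOfIntegers.coe_ne_zero_iff.2 hγ0)
  have hfγ : f (Ideal.span {γ}) ≠ 0 := fun h0 => by
    have h1 := hray hx hγ
    rw [h0, mul_zero] at h1
    exact mul_ne_zero (pow_ne_zero k hex) (pow_ne_zero k heγ) h1.symm
  rw [div_eq_div_iff (pow_ne_zero k hex) (pow_ne_zero k hey)]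
  refine mul_right_cancel₀ hfγ ?_
  linear_combination e (y : K) ^ k * hray hx hγ - e (x : K) ^ k * hray hy hyγ

/-- The values of a character are algebraic. -/
theorem isAlgebraic_char (h : IsAlgChar 𝔣 (typeAt e k) f) (I : Ideal (𝓞 K)) :
    IsAlgebraic ℚ (f I) := by
  obtain ⟨E, hfin, -, hE⟩ := h.exists_valueField
  exact (Algebra.IsAlgebraic.isAlgebraic (R := ℚ) (⟨f I, hE I⟩ : E)).algHom E.val

theorem isAlgebraic_emb (σ : K →+* ℂ) (x : K) : IsAlgebraic ℚ (σ x) :=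
  (Algebra.IsAlgebraic.isAlgebraic (R := ℚ) x).algHom σ.toRatAlgHom

/-- **The lattice of the integers**, for the conjugate embedding. -/
theorem exists_integer_lattice [IsTotallyComplex K] (hK : finrank ℚ K = 2) (σ : K →+* ℂ) :
    ∃ (τ : ℍ) (φ : 𝓞 K ≃ (latPair τ).lattice), (τ : ℂ) ∈ σ.range ∧
      ∀ x, ((φ x : (latPair τ).lattice) : ℂ) = σ (x : K) := by
  obtain ⟨d, hd, hd0, s₀, hs₀⟩ := FA.ChowlaSelberg.exists_sq_eq_intCast_neg K hK
  obtain ⟨s, hs, he⟩ : ∃ s : K, s ^ 2 = (d : K) ∧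
      σ s = Complex.I * (Real.sqrt (-(d : ℝ)) : ℂ) := by
    have hsq : (σ s₀) ^ 2 = (Complex.I * (Real.sqrt (-(d : ℝ)) : ℂ)) ^ 2 := by
      rw [← map_pow, hs₀, map_intCast, mul_pow, Complex.I_sq, ← Complex.ofReal_pow,
        Real.sq_sqrt (neg_nonneg.2 (Int.cast_nonpos.2 hd0.le))]
      push_cast
      ring
    rcases sq_eq_sq_iff_eq_or_eq_neg.1 hsq with h | h
    · exact ⟨s₀, hs₀, h⟩
    · exact ⟨-s₀, by rw [neg_sq, hs₀], by rw [map_neg, h, neg_neg]⟩
  obtain ⟨b, hb0, hb1⟩ := FA.ChowlaSelberg.exists_basis hK hd hd0 hs he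
  have him : 0 < (FA.CMFields.omega (FA.FieldClassBound.discK d)).im := by
    have h : (0 : ℝ) < -((FA.FieldClassBound.discK d : ℤ) : ℝ) := by
      have := Int.cast_lt_zero (R := ℝ) |>.2 (FA.FieldClassBound.discK_neg hd0)
      linarith
    simpa [FA.CMFields.omega] using Real.sqrt_pos.2 h
  set τ : ℍ := ⟨_, him⟩
  have hval : ∀ x : 𝓞 K, σ (x : K) = ((b.repr x 1 : ℤ) : ℂ) * τ + ((b.repr x 0 : ℤ) : ℂ) := fun x => by
    conv_lhs => rw [← b.sum_repr x]
    simp [Fin.sum_univ_two, hb0, hb1, τ, zsmul_eq_mul, add_comm]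
  let φ₀ : 𝓞 K → (latPair τ).lattice := fun x =>
    ⟨σ (x : K), mem_latPair.2 ⟨_, _, (hval x).symm⟩⟩
  have hφ : Function.Bijective φ₀ := by
    refine ⟨fun x y h => RingOfIntegers.coe_injective (σ.injective (congrArg Subtype.val h)),
      fun ⟨l, hl⟩ => ?_⟩
    obtain ⟨m, n, rfl⟩ := mem_latPair.1 hl
    refine ⟨m • b 1 + n • b 0, Subtype.ext ?_⟩
    simp [φ₀, hb0, hb1, τ, zsmul_eq_mul]
  exact ⟨τ, Equiv.ofBijective φ₀ hφ, ⟨(b 1 : K), hb1⟩, fun x => rfl⟩

/-- Scaling a lattice scales the sums. -/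
theorem sumInvPow_scalePair (L : PeriodPair) {c : ℂ} (hc : c ≠ 0) (x : ℂ) (r : ℕ) :
    L.sumInvPow x r = c ^ r * (FA.JInj.scalePair L c hc).sumInvPow (c * x) r := by
  let φ₀ : L.lattice → (FA.JInj.scalePair L c hc).lattice := fun l =>
    ⟨c * l, FA.JInj.mem_scalePair.2 ⟨l, l.2, rfl⟩⟩
  have hφ : Function.Bijective φ₀ := by
    refine ⟨fun l m h => Subtype.ext (mul_left_cancel₀ hc (congrArg Subtype.val h)),
      fun ⟨l, hl⟩ => ?_⟩
    obtain ⟨y, hy, rfl⟩ := FA.JInj.mem_scalePair.1 hl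
    exact ⟨⟨y, hy⟩, rfl⟩
  rw [PeriodPair.sumInvPow, PeriodPair.sumInvPow, ← (Equiv.ofBijective φ₀ hφ).tsum_eq,
    ← tsum_mul_left]
  refine tsum_congr fun l => ?_
  show _ = c ^ r * ((c * (l : ℂ) - c * x) ^ r)⁻¹
  rw [← mul_sub, mul_pow, mul_inv, ← mul_assoc, mul_inv_cancel₀ (pow_ne_zero r hc), one_mul]

/-- **A periodic sum over the integers** is algebraic up to `c ^ k` for a good scaling `c`. -/
theorem isAlgebraic_periodic_sum {σ : K →+* ℂ} {L : PeriodPair} (hω : L.ω₂ = 1)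
    (φ : 𝓞 K ≃ L.lattice) (hφ : ∀ x, ((φ x : L.lattice) : ℂ) = σ (x : K)) {c : ℂ} (hc : c ≠ 0)
    (h₂ : IsAlgebraic ℚ (FA.JInj.scalePair L c hc).g₂)
    (h₃ : IsAlgebraic ℚ (FA.JInj.scalePair L c hc).g₃) (hk : 3 ≤ k) {N : ℕ} (hN : N ≠ 0)
    {ψ : 𝓞 K → ℂ} (hψ : ∀ x, IsAlgebraic ℚ (ψ x))
    (hper : ∀ x y : 𝓞 K, x ≠ 0 → y ≠ 0 → (N : 𝓞 K) ∣ x - y → ψ x = ψ y) :
    ∃ S : ℂ, HasSum (fun x : 𝓞 K => ψ x * (σ (x : K) ^ k)⁻¹) S ∧
      IsAlgebraic ℚ (S / c ^ k) := by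
  haveI : NeZero N := ⟨hN⟩
  set F : ℂ → ℂ := fun z => if h : z ∈ L.lattice then ψ (φ.symm ⟨z, h⟩) * (z ^ k)⁻¹ else 0
  have hF : ∀ l : L.lattice, F l = ψ (φ.symm l) * ((l : ℂ) ^ k)⁻¹ := fun l => dif_pos l.2
  -- the value at a residue
  let el : Fin N × Fin N → 𝓞 K := fun i => φ.symm ⟨residue L N i, residue_mem L i⟩
  let rep : Fin N × Fin N → 𝓞 K := fun i => el i + N
  have hel : ∀ i, σ (el i : K) = residue L N i := fun i => by
    rw [← hφ, φ.apply_symm_apply]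
  have hrep : ∀ i, rep i ≠ 0 := fun i h0 => by
    have h1 := congrArg (fun x : 𝓞 K => σ (x : K)) h0
    simp only [rep, map_add, map_natCast, map_zero, hel, residue] at h1
    have h2 : (((i.1 : ℕ) : ℝ)) • L.ω₁ + (((i.2 : ℕ) + N : ℕ) : ℝ) • L.ω₂ = 0 := by
      simp only [Complex.real_smul]
      rw [hω] at h1 ⊢
      push_cast
      linear_combination h1
    have h3 := (LinearIndependent.pair_iff.1 L.indep _ _ h2).2
    have h4 : ((i.2 : ℕ) + N : ℕ) = 0 := by exact_mod_cast h3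
    omega
  have hkey : ∀ (i : Fin N × Fin N) (l : L.lattice), F ((N : ℂ) * l + residue L N i) =
      ψ (rep i) * (((N : ℂ) * l + residue L N i) ^ k)⁻¹ := fun i l => by
    set z := (N : ℂ) * l + residue L N i with hz
    have hzL : z ∈ L.lattice :=
      add_mem (by simpa [nsmul_eq_mul] using nsmul_mem l.2 N) (residue_mem L i)
    rw [show F z = ψ (φ.symm ⟨z, hzL⟩) * (z ^ k)⁻¹ from hF ⟨z, hzL⟩]
    by_cases h0 : z = 0
    · simp [h0, zero_pow (by omega : k ≠ 0)]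
    congr 1
    refine hper _ _ (fun h1 => h0 ?_) (hrep i) ⟨φ.symm l - 1, ?_⟩
    · have h2 : σ ((φ.symm ⟨z, hzL⟩ : 𝓞 K) : K) = z := by rw [← hφ, φ.apply_symm_apply]
      rw [← h2, h1]
      simp
    · refine RingOfIntegers.coe_injective (σ.injective ?_)
      simp only [rep, map_sub, map_add, map_mul, map_natCast, map_one, hel]
      rw [← hφ, φ.apply_symm_apply, ← hφ, φ.apply_symm_apply]
      show z - _ = _
      rw [hz]
      ring
  have hbd : ∀ x : 𝓞 K, x ≠ 0 → ‖ψ x‖ ≤ ∑ i, ‖ψ (rep i)‖ := fun x hx => by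
    obtain ⟨⟨i, l⟩, hil⟩ : ∃ p : (Fin N × Fin N) × L.lattice,
        (N : ℂ) * p.2 + residue L N p.1 = (φ x : L.lattice) := by
      obtain ⟨m, n, hmn⟩ := PeriodPair.mem_lattice.1 (φ x).2
      obtain ⟨⟨⟨i, j⟩, a, b⟩, hab⟩ := (pairResidues N).surjective (m, n)
      rw [pairResidues_apply, Prod.mk.injEq] at hab
      refine ⟨((i, j), ⟨(a : ℂ) * L.ω₁ + b * L.ω₂, PeriodPair.mem_lattice.2 ⟨a, b, rfl⟩⟩), ?_⟩
      rw [← hmn, ← hab.1, ← hab.2]
      simp [residue]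
      ring
    have h := hkey i l
    rw [hil, hF, φ.symm_apply_apply] at h
    have hne : ((φ x : L.lattice) : ℂ) ≠ 0 := by
      rw [hφ]; exact (map_ne_zero σ).2 (RingOfIntegers.coe_ne_zero_iff.2 hx)
    rw [mul_right_cancel₀ (inv_ne_zero (pow_ne_zero k hne)) h]
    exact Finset.single_le_sum (f := fun i => ‖ψ (rep i)‖) (fun _ _ => norm_nonneg _)
      (Finset.mem_univ i)
  have hinv : Summable fun l : L.lattice => ((l : ℂ) ^ k)⁻¹ := by
    simpa using (L.hasSum_sumInvPow 0 (r := k) (by omega)).summable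
  have hsum : Summable fun l : L.lattice => F l := by
    refine Summable.of_norm_bounded (hinv.norm.mul_left (∑ i, ‖ψ (rep i)‖)) fun l => ?_
    rw [hF, norm_mul]
    by_cases h0 : (l : ℂ) = 0
    · simp [h0, zero_pow (by omega : k ≠ 0)]
    refine mul_le_mul_of_nonneg_right (hbd _ fun h1 => h0 ?_) (norm_nonneg _)
    have h2 := hφ (φ.symm l)
    rw [φ.apply_symm_apply, h1] at h2
    simpa using h2
  refine ⟨∑' l : L.lattice, F l, ?_, ?_⟩
  · refine ((Equiv.hasSum_iff φ).2 hsum.hasSum).congr_fun fun x => ?_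
    rw [Function.comp_apply, hF, φ.symm_apply_apply, hφ]
  have hNC : (N : ℂ) ≠ 0 := Nat.cast_ne_zero.2 hN
  rw [tsum_residues L N hsum]
  rw [Finset.sum_congr rfl fun i _ => show (∑' l : L.lattice, F ((N : ℂ) * l + residue L N i)) =
      ψ (rep i) * (((N : ℂ) ^ k)⁻¹ * (c ^ k *
        (FA.JInj.scalePair L c hc).sumInvPow (c * -(residue L N i / N)) k)) by
    rw [tsum_congr fun l => hkey i l, ← sumInvPow_scalePair, PeriodPair.sumInvPow,
      ← tsum_mul_left, ← tsum_mul_left]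
    refine tsum_congr fun l => ?_
    rw [← mul_inv, ← mul_pow]
    congr 3
    field_simp
    ring, Finset.sum_div]
  refine isAlgebraic_sum _ fun i _ => ?_
  rw [show ψ (rep i) * (((N : ℂ) ^ k)⁻¹ * (c ^ k *
      (FA.JInj.scalePair L c hc).sumInvPow (c * -(residue L N i / N)) k)) / c ^ k =
      ψ (rep i) * ((N : ℂ) ^ k)⁻¹ *
        (FA.JInj.scalePair L c hc).sumInvPow (c * -(residue L N i / N)) k by
    field_simp]
  refine ((hψ _).mul ((isAlgebraic_natCast N).pow k).inv).mul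
    (isAlgebraic_sumInvPow _ h₂ h₃ hN ?_ hk)
  rw [show (N : ℂ) * (c * -(residue L N i / N)) = c * -residue L N i by field_simp]
  exact FA.JInj.mem_scalePair.2 ⟨_, neg_mem (residue_mem L i), rfl⟩

/-- **The ideals of one class.** -/
theorem hasSum_invClass (hU : Finite (𝓞 K)ˣ) {g : Ideal (𝓞 K) → ℂ}
    (hmul : ∀ I J, g (I * J) = g I * g J) (hbot : g ⊥ = 0) (J : (Ideal (𝓞 K))⁰) {T : ℂ}
    (hT : HasSum (fun x : 𝓞 K => if x ∈ J.1 then g (Ideal.span {x}) else 0) T) :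
    HasSum (fun I : {I : (Ideal (𝓞 K))⁰ // (ClassGroup.mk0 I)⁻¹ = ClassGroup.mk0 J} =>
      (Nat.card (𝓞 K)ˣ : ℂ) * (g I.1.1 * g J.1)) T := by
  have hgen : ∀ I : {I : (Ideal (𝓞 K))⁰ // (ClassGroup.mk0 I)⁻¹ = ClassGroup.mk0 J},
      ∃ β : 𝓞 K, β ≠ 0 ∧ I.1.1 * J.1 = Ideal.span {β} := fun I =>
    FA.ChowlaSelberg.exists_classGen I.1 J I.2
  choose β hβ0 hβ using hgen
  have hinj : Function.Injective fun p :
      {I : (Ideal (𝓞 K))⁰ // (ClassGroup.mk0 I)⁻¹ = ClassGroup.mk0 J} × (𝓞 K)ˣ =>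
        (p.2 : 𝓞 K) * β p.1 := by
    rintro ⟨I, u⟩ ⟨I', u'⟩ h
    have hI : I.1.1 * J.1 = I'.1.1 * J.1 := by
      rw [hβ, hβ, ← Ideal.span_singleton_mul_left_unit u.isUnit, show (u : 𝓞 K) * β I = _ from h,
        Ideal.span_singleton_mul_left_unit u'.isUnit]
    obtain rfl : I = I' :=
      Subtype.ext (Subtype.ext (mul_right_cancel₀ (nonZeroDivisors.coe_ne_zero J) hI))
    exact Prod.ext rfl (Units.ext (mul_right_cancel₀ (hβ0 I) h))
  have hmem : ∀ p : {I : (Ideal (𝓞 K))⁰ // (ClassGroup.mk0 I)⁻¹ = ClassGroup.mk0 J} × (𝓞 K)ˣ,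
      (p.2 : 𝓞 K) * β p.1 ∈ J.1 := fun p => Ideal.mul_mem_left _ _
    ((hβ p.1).symm.le.trans Ideal.mul_le_right (Ideal.mem_span_singleton_self _))
  have hrange : ∀ x : 𝓞 K, x ≠ 0 → x ∈ J.1 → ∃ p :
      {I : (Ideal (𝓞 K))⁰ // (ClassGroup.mk0 I)⁻¹ = ClassGroup.mk0 J} × (𝓞 K)ˣ,
        (p.2 : 𝓞 K) * β p.1 = x := fun x hx hxJ => by
    obtain ⟨I, hI⟩ : J.1 ∣ Ideal.span {x} :=
      Ideal.dvd_iff_le.2 ((Ideal.span_singleton_le_iff_mem _).2 hxJ)
    have hI0 : I ∈ (Ideal (𝓞 K))⁰ := mem_nonZeroDivisors_of_ne_zero fun h => hx (by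
      rw [h, mul_zero, Ideal.zero_eq_bot, Ideal.span_singleton_eq_bot] at hI
      exact hI)
    have hclass : (ClassGroup.mk0 ⟨I, hI0⟩)⁻¹ = ClassGroup.mk0 J := by
      refine inv_eq_of_mul_eq_one_left ?_
      rw [← map_mul]
      exact (ClassGroup.mk0_eq_one_iff _).2 ⟨⟨x, hI.symm⟩⟩
    have hspan : Ideal.span {β ⟨⟨I, hI0⟩, hclass⟩} = Ideal.span {x} := by
      rw [← hβ, hI, mul_comm]
    obtain ⟨u, hu⟩ := Ideal.span_singleton_eq_span_singleton.1 hspan
    exact ⟨(⟨⟨I, hI0⟩, hclass⟩, u), (mul_comm _ _).trans hu⟩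
  have hpair : HasSum (fun p :
      {I : (Ideal (𝓞 K))⁰ // (ClassGroup.mk0 I)⁻¹ = ClassGroup.mk0 J} × (𝓞 K)ˣ =>
        g p.1.1.1 * g J.1) T := by
    refine ((hinj.hasSum_iff fun x hx => ?_).2 hT).congr_fun fun p => ?_
    · by_cases hxJ : x ∈ J.1
      swap
      · rw [if_neg hxJ]
      by_cases h0 : x = 0
      · rw [if_pos hxJ, h0, Ideal.span_singleton_eq_bot.2 rfl, hbot]
      · exact absurd (hrange x h0 hxJ) hx
    · rw [Function.comp_apply, if_pos (hmem p), Ideal.span_singleton_mul_left_unit p.2.isUnit,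
        ← hβ, hmul]
  haveI := hU
  haveI : Fintype (𝓞 K)ˣ := Fintype.ofFinite _
  have hI := hpair.prod_fiberwise fun I => hasSum_fintype fun _ : (𝓞 K)ˣ => g I.1.1 * g J.1
  simpa only [Finset.sum_const, Finset.card_univ, nsmul_eq_mul, ← Nat.card_eq_fintype_card] using hI

variable {e}

/-- The series does not vanish. -/
theorem exists_hasSum [IsTotallyComplex K] (hK : finrank ℚ K = 2) (hk : 3 ≤ k)
    (h : IsAlgChar 𝔣 (typeAt e k) f) :
    ∃ S : ℂ, S ≠ 0 ∧ HasSum (fun I : (Ideal (𝓞 K))⁰ => term f k I.1) S := by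
  have hw := isPure_typeAt hK e k
  have hk' : (3 : ℝ) ≤ k := by exact_mod_cast hk
  have hs : 1 + (((k : ℤ) : ℝ)) / 2 < ((k : ℂ)).re := by
    rw [Complex.natCast_re]; push_cast; linarith
  refine ⟨_, ?_, (h.hasSum hw hs).congr_fun fun I => term_eq_cpow f I.1⟩
  rw [← (h.torus hw).unimod.exp_logF (s := (k : ℂ) - ((k : ℤ) : ℂ) / 2) (by
    simp; linarith)]
  exact Complex.exp_ne_zero _

/-- **Damerell's theorem**: `L (f, k)` is `c ^ k` times an algebraic number that is not `0`, for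
every scaling `c` making the lattice of the integers one with algebraic invariants. -/
theorem damerell [IsTotallyComplex K] (hK : finrank ℚ K = 2) (hk : 3 ≤ k)
    (h : IsAlgChar 𝔣 (typeAt e k) f) {τ : ℍ} (φ : 𝓞 K ≃ (latPair τ).lattice)
    (hφ : ∀ x, ((φ x : (latPair τ).lattice) : ℂ) = ComplexEmbedding.conjugate e (x : K))
    {c : ℂ} (hc : c ≠ 0)
    (h₂ : IsAlgebraic ℚ (FA.JInj.scalePair (latPair τ) c hc).g₂)
    (h₃ : IsAlgebraic ℚ (FA.JInj.scalePair (latPair τ) c hc).g₃) :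
    ∃ A : ℂ, IsAlgebraic ℚ A ∧ A ≠ 0 ∧
      HasSum (fun I : (Ideal (𝓞 K))⁰ => term f k I.1) (A * c ^ k) := by
  have hk0 : k ≠ 0 := by omega
  obtain ⟨S, hS0, hS⟩ := exists_hasSum hK hk h
  have hU : Finite (𝓞 K)ˣ := by
    obtain ⟨d, -, hd0, s, hs⟩ := FA.ChowlaSelberg.exists_sq_eq_intCast_neg K hK
    exact Nat.finite_of_card_ne_zero (by
      rw [FA.ChowlaSelberg.card_units hK hd0 hs]; exact Units.torsionOrder_ne_zero K)
  have hcard : ((Nat.card (𝓞 K)ˣ : ℕ) : ℂ) ≠ 0 :=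
    Nat.cast_ne_zero.2 Nat.card_pos.ne'
  choose J hJC hJf using FA.Hecke.exists_coprime_class h.ne_bot
  -- one class
  have hclass : ∀ C : ClassGroup (𝓞 K), ∃ T : ℂ,
      HasSum (fun I : {I : (Ideal (𝓞 K))⁰ // ClassGroup.mk0 I = C} => term f k I.1.1) T ∧
      IsAlgebraic ℚ (T / c ^ k) := fun C => by
    set 𝔟 := (J C).1
    set N := Ideal.absNorm (𝔣 * 𝔟)
    have hN : N ≠ 0 := fun h0 => mul_ne_zero h.ne_bot (nonZeroDivisors.coe_ne_zero (J C))
      (Ideal.absNorm_eq_zero_iff.1 h0)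
    set ψ : 𝓞 K → ℂ := fun x =>
      if x ∈ 𝔟 then f (Ideal.span {x}) / e (x : K) ^ k else 0
    have hψ : ∀ x, IsAlgebraic ℚ (ψ x) := fun x => by
      simp only [ψ]
      split_ifs
      · rw [div_eq_mul_inv]
        exact (isAlgebraic_char e h _).mul ((isAlgebraic_emb e _).pow k).inv
      · exact isAlgebraic_zero
    have hper : ∀ x y : 𝓞 K, x ≠ 0 → y ≠ 0 → (N : 𝓞 K) ∣ x - y → ψ x = ψ y := by
      intro x y hx hy hxy
      have hmem : x - y ∈ 𝔣 * 𝔟 := by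
        obtain ⟨z, hz⟩ := hxy
        rw [hz]
        exact Ideal.mul_mem_right _ _ (Ideal.absNorm_mem _)
      have hb : x ∈ 𝔟 ↔ y ∈ 𝔟 := ⟨fun h' => by
          rw [show y = x - (x - y) by ring]; exact sub_mem h' (Ideal.mul_le_right hmem), fun h' => by
          rw [show x = y + (x - y) by ring]; exact add_mem h' (Ideal.mul_le_right hmem)⟩
      simp only [ψ, hb, char_div_periodic e h hx hy (Ideal.mul_le_left hmem)]
    obtain ⟨T, hT, hTalg⟩ := isAlgebraic_periodic_sum rfl φ hφ hc h₂ h₃ hk hN hψ hper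
    have hT' : HasSum (fun x : 𝓞 K => if x ∈ 𝔟 then term f k (Ideal.span {x}) else 0) T := by
      refine hT.congr_fun fun x => ?_
      by_cases h0 : x = 0
      · simp [ψ, h0, term_bot f hk0, zero_pow hk0]
      simp only [ψ]
      split_ifs
      swap
      · rw [zero_mul]
      have hex : e (x : K) ≠ 0 := (map_ne_zero e).2 (RingOfIntegers.coe_ne_zero_iff.2 h0)
      rw [term, absNorm_span_eq hK e x, ComplexEmbedding.conjugate_coe_eq, mul_pow, mul_inv,
        div_eq_mul_inv]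
      ring
    have hsum := hasSum_invClass hU (term_mul f k) (term_bot f hk0) (J C) hT'
    have hJ0 : term f k 𝔟 ≠ 0 :=
      mul_ne_zero ((h.ne_zero_iff _ (nonZeroDivisors.coe_ne_zero _)).2 (hJf C))
        (inv_ne_zero (pow_ne_zero _ (Nat.cast_ne_zero.2
          (Ideal.absNorm_ne_zero_of_nonZeroDivisors (J C)))))
    let q : {I : (Ideal (𝓞 K))⁰ // ClassGroup.mk0 I = C} ≃
        {I : (Ideal (𝓞 K))⁰ // (ClassGroup.mk0 I)⁻¹ = ClassGroup.mk0 (J C)} :=
      Equiv.subtypeEquivRight fun I => by rw [hJC, inv_inj]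
    refine ⟨T * ((Nat.card (𝓞 K)ˣ : ℂ) * term f k 𝔟)⁻¹, ?_, ?_⟩
    · refine ((q.hasSum_iff.2 hsum).mul_right
        ((Nat.card (𝓞 K)ˣ : ℂ) * term f k 𝔟)⁻¹).congr_fun fun I => ?_
      rw [Function.comp_apply]
      show _ = (Nat.card (𝓞 K)ˣ : ℂ) * (term f k I.1.1 * term f k 𝔟) * _
      field_simp
    · rw [show T * ((Nat.card (𝓞 K)ˣ : ℂ) * term f k 𝔟)⁻¹ / c ^ k =
        T / c ^ k * ((Nat.card (𝓞 K)ˣ : ℂ) * term f k 𝔟)⁻¹ by ring]
      exact hTalg.mul ((isAlgebraic_natCast _).mul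
        ((isAlgebraic_char e h _).mul ((isAlgebraic_natCast _).pow k).inv)).inv
  choose T hT hTalg using hclass
  have hsig := ((Equiv.sigmaFiberEquiv fun I : (Ideal (𝓞 K))⁰ =>
    ClassGroup.mk0 I).hasSum_iff.2 hS).sigma hT
  have hSeq : S = ∑ C, T C := hsig.unique (hasSum_fintype T)
  refine ⟨S / c ^ k, ?_, div_ne_zero hS0 (pow_ne_zero k hc), by
    rwa [div_mul_cancel₀ _ (pow_ne_zero k hc)]⟩
  rw [hSeq, Finset.sum_div]
  exact isAlgebraic_sum _ fun C _ => hTalg C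

/-- A number which makes `E₄` and `E₆` algebraic makes the lattice invariants algebraic. -/
theorem isAlgebraic_scaled_invariants {τ : ℍ} {Ω : ℂ} (hΩ : Ω ≠ 0)
    (h4 : IsAlgebraic ℚ (ModularForm.E₄ τ / Ω ^ 4))
    (h6 : IsAlgebraic ℚ (ModularForm.E₆ τ / Ω ^ 6)) :
    IsAlgebraic ℚ (FA.JInj.scalePair (latPair τ) (π * Ω)
        (mul_ne_zero (Complex.ofReal_ne_zero.2 Real.pi_ne_zero) hΩ)).g₂ ∧
      IsAlgebraic ℚ (FA.JInj.scalePair (latPair τ) (π * Ω)
        (mul_ne_zero (Complex.ofReal_ne_zero.2 Real.pi_ne_zero) hΩ)).g₃ := by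
  have hI : IsAlgebraic ℚ Complex.I :=
    IsAlgebraic.of_pow two_pos (by rw [Complex.I_sq]; exact isAlgebraic_one.neg)
  have hπ : (π : ℂ) ≠ 0 := Complex.ofReal_ne_zero.2 Real.pi_ne_zero
  rw [FA.JInj.g₂_scalePair, FA.JInj.g₃_scalePair, g₂_latPair, g₃_latPair, tpi]
  constructor
  · rw [show ((↑π * Ω) ^ 4)⁻¹ * ((2 * ↑π * Complex.I) ^ 4 / 12 * ModularForm.E₄ τ) =
        (((2 : ℕ) : ℂ) * Complex.I) ^ 4 * (((12 : ℕ) : ℂ))⁻¹ * (ModularForm.E₄ τ / Ω ^ 4) by
      push_cast; field_simp]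
    exact ((((isAlgebraic_natCast 2).mul hI).pow 4).mul (isAlgebraic_natCast 12).inv).mul h4
  · rw [show ((↑π * Ω) ^ 6)⁻¹ * (-((2 * ↑π * Complex.I) ^ 6 / 216) * ModularForm.E₆ τ) =
        -((((2 : ℕ) : ℂ) * Complex.I) ^ 6 * (((216 : ℕ) : ℂ))⁻¹ * (ModularForm.E₆ τ / Ω ^ 6)) by
      push_cast; field_simp]
    exact (((((isAlgebraic_natCast 2).mul hI).pow 6).mul
      (isAlgebraic_natCast 216).inv).mul h6).neg

/-- An algebraic number not `0` times a power of a transcendental number is transcendental. -/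
theorem transcendental_mul_pow {A c : ℂ} (hA : IsAlgebraic ℚ A) (hA0 : A ≠ 0)
    (hc : Transcendental ℚ c) {n : ℕ} (hn : 0 < n) : Transcendental ℚ (A * c ^ n) := fun h =>
  hc (IsAlgebraic.of_pow hn (by
    have h' := h.mul hA.inv
    rwa [mul_comm A, mul_inv_cancel_right₀ hA0] at h'))

end FA.Damerell

end
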